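import Fermat.Agent.LT.T3.R.Spec

/-!
# Row LT, tower T3, station T3.18R, leaf R.9 (helper505): the type `typeR n` is a `K_∞`-type

OFF-MAIN.  `typeRC505 (K) : Fermat.Agent.LT.T3.R.TypeRC K`, the frozen Prop of
`Fermat/Agent/LT/T3/R/Spec.lean` (architect helper14) VERBATIM.

Proof.  For `k` in the compact group at the real place `w` the components of `k` at the other
infinite places are `1`, and the component `M` at `w` is a real matrix with `M Mᵀ = 1`,
`det M = 1`, i.e. `M = !![a, -c; c, a]`, `a² + c² = 1`.  On such matrices the holomorphic part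
`A(M) = a + i c` is multiplicative and of norm `1`; `A(1) = 1`.  The components are continuous
ring homomorphisms and `z ↦ z ^ n` is continuous away from `0`.
-/

set_option autoImplicit false

open IsDedekindDomain NumberField
open Fermat.Agent.LT.H556.A0

noncomputable section

namespace Fermat.Agent.LT.T3.R.H505

open Fermat.Agent.LT.T3.R

/-! ## 1. The real place -/

/-- The four real equations of `SO(2)`. -/
theorem so2_shape505 (M : Matrix (Fin 2) (Fin 2) ℝ) (h : M * M.transpose = 1) (hd : M.det = 1) :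
    M 1 1 = M 0 0 ∧ M 0 1 = -M 1 0 ∧ M 0 0 ^ 2 + M 1 0 ^ 2 = 1 := by
  have h00 := congrFun (congrFun h 0) 0
  have h11 := congrFun (congrFun h 1) 1
  simp only [Matrix.mul_apply, Fin.sum_univ_two, Matrix.transpose_apply, Matrix.one_apply_eq]
    at h00 h11
  rw [Matrix.det_fin_two] at hd
  have hsq : (M 0 0 - M 1 1) ^ 2 + (M 0 1 + M 1 0) ^ 2 = 0 := by nlinarith
  have n1 : 0 ≤ (M 0 0 - M 1 1) ^ 2 := sq_nonneg _
  have n2 : 0 ≤ (M 0 1 + M 1 0) ^ 2 := sq_nonneg _
  have h1 : (M 0 0 - M 1 1) ^ 2 = 0 := by linarith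
  have h2 : (M 0 1 + M 1 0) ^ 2 = 0 := by linarith
  have e1 : M 0 0 - M 1 1 = 0 := by simpa using h1
  have e2 : M 0 1 + M 1 0 = 0 := by simpa using h2
  have a1 : M 1 1 = M 0 0 := by linarith
  have a2 : M 0 1 = -M 1 0 := by linarith
  refine ⟨a1, a2, ?_⟩
  rw [a2] at h00
  nlinarith

theorem holPart_one505 : T6.holPart (1 : GL (Fin 2) ℝ) = 1 := by
  simp [T6.holPart]

/-- On `SO(2)` the holomorphic part is `a + i c`. -/
theorem holPart_so2_505 (y : GL (Fin 2) ℝ) (h : T6.InSO2 y) :
    T6.holPart y = (((y : Matrix (Fin 2) (Fin 2) ℝ) 0 0 : ℝ) : ℂ)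
      + (((y : Matrix (Fin 2) (Fin 2) ℝ) 1 0 : ℝ) : ℂ) * Complex.I := by
  obtain ⟨a1, a2, -⟩ := so2_shape505 _ h.1 h.2
  unfold T6.holPart
  rw [a1, a2]
  push_cast
  ring

theorem norm_holPart_so2_505 (y : GL (Fin 2) ℝ) (h : T6.InSO2 y) : ‖T6.holPart y‖ = 1 := by
  obtain ⟨-, -, a3⟩ := so2_shape505 _ h.1 h.2
  rw [holPart_so2_505 y h]
  have hn : ‖(((y : Matrix (Fin 2) (Fin 2) ℝ) 0 0 : ℝ) : ℂ)
      + (((y : Matrix (Fin 2) (Fin 2) ℝ) 1 0 : ℝ) : ℂ) * Complex.I‖ ^ 2 = 1 := by
    rw [← Complex.normSq_eq_norm_sq, Complex.normSq_add_mul_I]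
    exact a3
  have h0 : 0 ≤ ‖(((y : Matrix (Fin 2) (Fin 2) ℝ) 0 0 : ℝ) : ℂ)
      + (((y : Matrix (Fin 2) (Fin 2) ℝ) 1 0 : ℝ) : ℂ) * Complex.I‖ := norm_nonneg _
  nlinarith

theorem holPart_mul_so2_505 (y y' : GL (Fin 2) ℝ) (h : T6.InSO2 y) (h' : T6.InSO2 y') :
    T6.holPart (y * y') = T6.holPart y * T6.holPart y' := by
  obtain ⟨a1, a2, -⟩ := so2_shape505 _ h.1 h.2
  obtain ⟨b1, b2, -⟩ := so2_shape505 _ h'.1 h'.2
  rw [holPart_so2_505 y h, holPart_so2_505 y' h']
  unfold T6.holPart
  rw [Units.val_mul]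
  simp only [Matrix.mul_apply, Fin.sum_univ_two]
  rw [a1, a2, b1, b2]
  push_cast
  linear_combination
    (-((((y : Matrix (Fin 2) (Fin 2) ℝ) 1 0 : ℝ) : ℂ)
      * (((y' : Matrix (Fin 2) (Fin 2) ℝ) 1 0 : ℝ) : ℂ))) * Complex.I_sq

/-! ## 2. The components at the real places -/

variable (K : Type) [Field K] [NumberField K]

theorem continuous_reHom505 (w : InfinitePlace K) (hw : w.IsReal) :
    Continuous (reHom K w hw) := by
  have h : Continuous (fun x : InfiniteAdeleRing K × FiniteAdeleRing (𝓞 K) K =>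
      InfinitePlace.Completion.extensionEmbeddingOfIsReal hw (x.1 w)) :=
    (InfinitePlace.Completion.isometry_extensionEmbeddingOfIsReal hw).continuous.comp
      ((continuous_apply w).comp continuous_fst)
  exact h

theorem reGL_apply505 (w : InfinitePlace K) (hw : w.IsReal) (g : G K) (i j : Fin 2) :
    ((reGL K w hw g : GL (Fin 2) ℝ) : Matrix (Fin 2) (Fin 2) ℝ) i j
      = reHom K w hw ((g : Matrix (Fin 2) (Fin 2) (Adl K)) i j) := rfl

theorem continuous_reGL_entry505 (w : InfinitePlace K) (hw : w.IsReal) (i j : Fin 2) :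
    Continuous (fun g : G K =>
      ((reGL K w hw g : GL (Fin 2) ℝ) : Matrix (Fin 2) (Fin 2) ℝ) i j) := by
  have h1 : Continuous (fun g : G K => (g : Matrix (Fin 2) (Fin 2) (Adl K)) i j) :=
    (Units.continuous_val).matrix_elem i j
  exact (continuous_reHom505 K w hw).comp h1

theorem continuous_holPart_reGL505 (w : InfinitePlace K) (hw : w.IsReal) :
    Continuous (fun g : G K => T6.holPart (reGL K w hw g)) := by
  unfold T6.holPart
  have c00 := continuous_reGL_entry505 K w hw 0 0
  have c11 := continuous_reGL_entry505 K w hw 1 1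
  have c10 := continuous_reGL_entry505 K w hw 1 0
  have c01 := continuous_reGL_entry505 K w hw 0 1
  exact ((Complex.continuous_ofReal.comp (c00.add c11)).add
    ((Complex.continuous_ofReal.comp (c10.sub c01)).mul continuous_const)).div_const _

/-- Trivial at `w'`: the real component is `1`. -/
theorem reGL_eq_one_of_triv505 (w : InfinitePlace K) (hw : w.IsReal) (g : G K)
    (h : TrivAtInf w g) : reGL K w hw g = 1 := by
  apply Units.ext
  ext i j
  rw [reGL_apply505, Units.val_one]
  have e : reHom K w hw ((g : Matrix (Fin 2) (Fin 2) (Adl K)) i j)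
      = InfinitePlace.Completion.extensionEmbeddingOfIsReal hw
        ((((g : Matrix (Fin 2) (Fin 2) (Adl K)) i j)).1 w) := rfl
  rw [e, h i j]
  by_cases hij : i = j
  · subst hij
    rw [Matrix.one_apply_eq, Matrix.one_apply_eq, map_one]
  · rw [Matrix.one_apply_ne hij, Matrix.one_apply_ne hij, map_zero]

/-- The real component of an element of the compact group at `w` is in `SO(2)`. -/
theorem inSO2_of_archCompact505 (w : InfinitePlace K) (hw : w.IsReal) (k : G K)
    (h : IsArchCompact w k) : T6.InSO2 (reGL K w hw k) := by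
  obtain ⟨-, h1, h2⟩ := h
  have hmap : infComp w k
      = ((reGL K w hw k : GL (Fin 2) ℝ) : Matrix (Fin 2) (Fin 2) ℝ).map
          (algebraMap ℝ ℂ) := by
    ext i j
    rw [infComp_eq_reGL K w hw k i j]
    rfl
  have hinj : Function.Injective
      (fun M : Matrix (Fin 2) (Fin 2) ℝ => M.map (algebraMap ℝ ℂ)) :=
    Matrix.map_injective (algebraMap ℝ ℂ).injective
  constructor
  · apply hinj
    show (((reGL K w hw k : GL (Fin 2) ℝ) : Matrix (Fin 2) (Fin 2) ℝ)
        * ((reGL K w hw k : GL (Fin 2) ℝ) : Matrix (Fin 2) (Fin 2) ℝ).transpose).map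
          (algebraMap ℝ ℂ) = (1 : Matrix (Fin 2) (Fin 2) ℝ).map (algebraMap ℝ ℂ)
    rw [Matrix.map_mul, Matrix.map_one _ (map_zero _) (map_one _)]
    rw [hmap] at h1
    have hct : (((reGL K w hw k : GL (Fin 2) ℝ) : Matrix (Fin 2) (Fin 2) ℝ).map
        (algebraMap ℝ ℂ)).conjTranspose
        = (((reGL K w hw k : GL (Fin 2) ℝ) : Matrix (Fin 2) (Fin 2) ℝ).transpose).map
          (algebraMap ℝ ℂ) := by
      ext i j
      simp [Matrix.conjTranspose_apply, Matrix.map_apply]
    rw [hct] at h1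
    exact h1
  · have hdet := h2 hw
    rw [hmap] at hdet
    have e : (((reGL K w hw k : GL (Fin 2) ℝ) : Matrix (Fin 2) (Fin 2) ℝ).map
        (algebraMap ℝ ℂ)).det
        = algebraMap ℝ ℂ ((reGL K w hw k : GL (Fin 2) ℝ) : Matrix (Fin 2) (Fin 2) ℝ).det :=
      ((algebraMap ℝ ℂ).map_det _).symm
    rw [e] at hdet
    have : algebraMap ℝ ℂ ((reGL K w hw k : GL (Fin 2) ℝ) : Matrix (Fin 2) (Fin 2) ℝ).det
        = algebraMap ℝ ℂ 1 := by rw [hdet, map_one]
    exact (algebraMap ℝ ℂ).injective this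

/-! ## 3. The type -/

variable (hR : ∀ w : InfinitePlace K, w.IsReal) (n : InfinitePlace K → ℤ)

/-- The local factor at `w'` of an element of the compact group at `w ≠ w'` is `1`. -/
theorem wtChar_other505 (w w' : InfinitePlace K) (hne : w' ≠ w) (k : G K)
    (h : IsArchCompact w k) : T6.wtChar (n w') (reGL K w' (hR w') k) = 1 := by
  rw [reGL_eq_one_of_triv505 K w' (hR w') k (h.1.1 w' hne)]
  unfold T6.wtChar
  rw [holPart_one505, one_zpow]

theorem holPart_ne_zero505 (w w' : InfinitePlace K) (k : G K) (h : IsArchCompact w k) :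
    T6.holPart (reGL K w' (hR w') k) ≠ 0 := by
  by_cases hne : w' = w
  · subst hne
    have := norm_holPart_so2_505 _ (inSO2_of_archCompact505 K w' (hR w') k h)
    intro h0
    rw [h0, norm_zero] at this
    exact zero_ne_one this
  · rw [reGL_eq_one_of_triv505 K w' (hR w') k (h.1.1 w' hne), holPart_one505]
    exact one_ne_zero

theorem typeR_eq_single505 (w : InfinitePlace K) (k : G K) (h : IsArchCompact w k) :
    typeR K hR n k = T6.wtChar (n w) (reGL K w (hR w) k) := by
  unfold typeR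
  exact Finset.prod_eq_single w (fun w' _ hne => wtChar_other505 K hR n w w' hne k h)
    (fun hw => absurd (Finset.mem_univ w) hw)

theorem typeRC505 : Fermat.Agent.LT.T3.R.TypeRC K := by
  intro hR n
  refine ⟨?_, ?_, ?_⟩
  · intro w k hk
    rw [typeR_eq_single505 K hR n w k hk]
    unfold T6.wtChar
    rw [norm_zpow, norm_holPart_so2_505 _ (inSO2_of_archCompact505 K w (hR w) k hk), one_zpow]
  · intro w k k' hk hk'
    unfold typeR
    rw [← Finset.prod_mul_distrib]
    refine Finset.prod_congr rfl fun w' _ => ?_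
    rw [map_mul]
    by_cases hne : w' = w
    · subst hne
      unfold T6.wtChar
      rw [holPart_mul_so2_505 _ _ (inSO2_of_archCompact505 K w' (hR w') k hk)
        (inSO2_of_archCompact505 K w' (hR w') k' hk'), mul_zpow]
    · rw [reGL_eq_one_of_triv505 K w' (hR w') k (hk.1.1 w' hne),
        reGL_eq_one_of_triv505 K w' (hR w') k' (hk'.1.1 w' hne), mul_one]
      unfold T6.wtChar
      rw [holPart_one505, one_zpow, one_mul]
  · intro w
    unfold typeR
    refine continuousOn_finsetProd _ fun w' _ => ?_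
    unfold T6.wtChar
    exact (continuous_holPart_reGL505 K w' (hR w')).continuousOn.zpow₀ (n w')
      (fun k hk => Or.inl (holPart_ne_zero505 K hR w w' k hk))

end Fermat.Agent.LT.T3.R.H505
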